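import Fermat.Agent.Bilharz.Sieve
import Fermat.Agent.BurgessGeneral.PrimitiveRoot
import Mathlib.FieldTheory.Finite.Extension

/-!
# Bilharz's theorem

For `n ≡ 1` modulo `(deg a)!` a prime `ℓ ∣ q ^ n - 1` of which `a` becomes a power divides
`q - 1`, and then `a` already is one over the field with `q` elements; so for large such `n` some
generator value is attained, necessarily at a point of exact degree `n`.
-/

set_option autoImplicit false
set_option linter.unusedSectionVars false

noncomputable section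

namespace FA.Bilharz

open Polynomial Finset FA.CharacterSums UniqueFactorizationMonoid Filter
open scoped Classical Topology

variable {F : Type*} [Field F] [Fintype F] [DecidableEq F]

/-- `a` is a primitive root modulo `P`: prime to it, and its powers represent every class prime
to `P`. -/
def IsPrimitiveRootMod (a P : F[X]) : Prop :=
  ¬ P ∣ a ∧ ∀ g : F[X], ¬ P ∣ g → ∃ k : ℕ, P ∣ a ^ k - g

theorem eq_C_mul_pow_of_map_eq_pow {K : Type*} [Field K] [Algebra F K] {a : F[X]} (ha : a ≠ 0)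
    {l : ℕ} {u : K[X]} (hu : a.map (algebraMap F K) = u ^ l) :
    ∃ b : F[X], a = C a.leadingCoeff * b ^ l := by
  obtain ⟨a₀, ha₀⟩ : ∃ a₀, a₀ = a * C a.leadingCoeff⁻¹ := ⟨_, rfl⟩
  have hlc : a.leadingCoeff ≠ 0 := leadingCoeff_ne_zero.2 ha
  have hm : a₀.Monic := ha₀ ▸ monic_mul_leadingCoeff_inv ha
  have haa : a = C a.leadingCoeff * a₀ := by
    rw [ha₀, mul_left_comm, ← C_mul, mul_inv_cancel₀ hlc, C_1, mul_one]
  have hs : ∀ P ∈ primeFactors a₀, P.Monic ∧ Irreducible P := fun P hP =>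
    ⟨monic_of_mem (mem_primeFactors.1 hP),
      irreducible_of_normalized_factor P (mem_primeFactors.1 hP)⟩
  have hdiv : ∀ P ∈ primeFactors a₀, l ∣ (normalizedFactors a₀).count P := by
    intro P hP
    obtain ⟨α, hα⟩ : ∃ α : AlgebraicClosure K, aeval α P = 0 :=
      IsAlgClosed.exists_aeval_eq_zero _ P (hs P hP).2.degree_pos.ne'
    have h1 := congrArg (fun w : K[X] => (w.aroots (AlgebraicClosure K)).count α) hu
    simp only [aroots_map, aroots_pow, Multiset.count_nsmul] at h1
    rw [haa, aroots_C_mul _ hlc, eq_prod_primeFactors hm, count_aroots_prod hs _ hP hα] at h1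
    exact ⟨_, h1⟩
  refine ⟨∏ P ∈ primeFactors a₀, P ^ ((normalizedFactors a₀).count P / l), ?_⟩
  conv_lhs => rw [haa, eq_prod_primeFactors hm]
  rw [← prod_pow]
  refine congrArg _ (prod_congr rfl fun P hP => ?_)
  rw [← pow_mul, Nat.div_mul_cancel (hdiv P hP)]

theorem not_pow_map {K : Type*} [Field K] [Fintype K] [Algebra F K] {a : F[X]}
    (hm : 1 ≤ a.natDegree)
    (ha : ∀ l : ℕ, l.Prime → l ∣ Fintype.card F - 1 → ¬ ∃ u : F[X], a = u ^ l)
    (hn : Module.finrank F K ≡ 1 [MOD a.natDegree.factorial]) :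
    ∀ l : ℕ, l.Prime → l ∣ Fintype.card K - 1 →
      ¬ ∃ u : K[X], a.map (algebraMap F K) = u ^ l := by
  rintro l hl hld ⟨u, hu⟩
  have ha0 : a ≠ 0 := fun e => by rw [e, natDegree_zero] at hm; omega
  obtain ⟨n, hn'⟩ : ∃ n, n = Module.finrank F K := ⟨_, rfl⟩
  rw [← hn'] at hn
  have hn1 : 1 ≤ n := hn' ▸ Module.finrank_pos
  have hlm : l ≤ a.natDegree := by
    have h1 := congrArg natDegree hu
    rw [natDegree_map, natDegree_pow] at h1
    have : 0 < u.natDegree := by
      by_contra h0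
      rw [show u.natDegree = 0 by omega, mul_zero] at h1
      omega
    rw [h1]
    exact Nat.le_mul_of_pos_right l this
  have hdvd : ∀ j, 0 < j → j ≤ a.natDegree → j ∣ n - 1 := fun j hj hjm =>
    (Nat.dvd_factorial hj hjm).trans ((Nat.modEq_iff_dvd' hn1).1 hn.symm)
  have hcard : Fintype.card K = Fintype.card F ^ n := hn' ▸ Module.card_eq_pow_finrank
  obtain ⟨i, hi⟩ := hdvd (l - 1) (by have := hl.two_le; omega) (by omega)
  -- `l` divides `q - 1`
  have hlq : l ∣ Fintype.card F - 1 := by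
    have := Fact.mk hl
    have hq1 : 1 ≤ Fintype.card F := Fintype.card_pos
    have hQ1 : 1 ≤ Fintype.card K := Fintype.card_pos
    rw [← ZMod.natCast_eq_zero_iff, Nat.cast_sub hQ1, hcard, Nat.cast_pow, Nat.cast_one] at hld
    rw [← ZMod.natCast_eq_zero_iff, Nat.cast_sub hq1, Nat.cast_one]
    have hq0 : (Fintype.card F : ZMod l) ≠ 0 := fun e => by
      rw [e, zero_pow (by omega), zero_sub, neg_eq_zero] at hld
      exact one_ne_zero hld
    rwa [show n = (l - 1) * i + 1 by omega, pow_succ, pow_mul, ZMod.pow_card_sub_one_eq_one hq0,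
      one_pow, one_mul] at hld
  obtain ⟨b, hb⟩ := eq_C_mul_pow_of_map_eq_pow ha0 hu
  -- the leading coefficient is an `l`-th power
  have hlc := congrArg leadingCoeff hu
  rw [leadingCoeff_map, leadingCoeff_pow] at hlc
  have hN := congrArg (Algebra.norm F) hlc
  rw [Algebra.norm_algebraMap, map_pow, ← hn'] at hN
  obtain ⟨k, hk⟩ := hdvd l hl.pos hlm
  have hc0 : a.leadingCoeff ≠ 0 := leadingCoeff_ne_zero.2 ha0
  refine ha l hl hlq ⟨C (Algebra.norm F u.leadingCoeff / a.leadingCoeff ^ k) * b, ?_⟩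
  rw [mul_pow, ← C_pow, div_pow, ← hN, ← pow_mul, show n = k * l + 1 by rw [mul_comm]; omega,
    pow_succ, mul_div_cancel_left₀ _ (pow_ne_zero _ hc0)]
  exact hb

theorem exists_pow_eq_of_orderOf {K : Type*} [Field K] [Fintype K] {b : K}
    (hb : orderOf b = Fintype.card K - 1) {y : K} (hy : y ≠ 0) : ∃ k : ℕ, b ^ k = y := by
  have hq := Fintype.one_lt_card (α := K)
  have hb0 : b ≠ 0 := fun e => by
    rw [e, orderOf_zero] at hb
    omega
  have htop : Subgroup.zpowers (Units.mk0 b hb0) = ⊤ := Subgroup.eq_top_of_card_eq _ (by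
    rw [Nat.card_zpowers, ← orderOf_units, Units.val_mk0, hb, Nat.card_units,
      Nat.card_eq_fintype_card])
  obtain ⟨k, hk⟩ := mem_powers_iff_mem_zpowers.2
    (htop.symm ▸ Subgroup.mem_top (Units.mk0 y hy) :
      Units.mk0 y hy ∈ Subgroup.zpowers (Units.mk0 b hb0))
  exact ⟨k, by simpa using congrArg Units.val hk⟩

/-- A point where `a` takes a generator of the units has full degree, and `a` is a primitive root
modulo its minimal polynomial. -/
theorem exists_of_generator {K : Type*} [Field K] [Fintype K] [Algebra F K] {a : F[X]} {x : K}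
    (hord : orderOf (aeval x a) = Fintype.card K - 1) :
    (minpoly F x).natDegree = Module.finrank F K ∧ IsPrimitiveRootMod a (minpoly F x) := by
  have hint : IsIntegral F x := Algebra.IsIntegral.isIntegral x
  refine ⟨?_, fun hdvd => ?_, fun g hg => ?_⟩
  · suffices h : IntermediateField.adjoin F {x} = ⊤ by
      rw [← IntermediateField.adjoin.finrank hint, h, IntermediateField.finrank_top']
    refine top_unique fun y _ => ?_
    rcases eq_or_ne y 0 with rfl | hy
    · exact zero_mem _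
    obtain ⟨k, rfl⟩ := exists_pow_eq_of_orderOf hord hy
    exact pow_mem (IntermediateField.algebra_adjoin_le_adjoin F {x}
      (aeval_mem_adjoin_singleton F x)) k
  · rw [aeval_eq_zero_of_dvd_aeval_eq_zero hdvd (minpoly.aeval F x), orderOf_zero] at hord
    have := Fintype.one_lt_card (α := K)
    omega
  · obtain ⟨k, hk⟩ := exists_pow_eq_of_orderOf hord fun e => hg (minpoly.dvd F x e)
    exact ⟨k, minpoly.dvd F x (by rw [map_sub, map_pow, hk, sub_self])⟩

theorem eventually_exists_primitiveRootMod {a : F[X]} (hm : 1 ≤ a.natDegree)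
    (ha : ∀ l : ℕ, l.Prime → l ∣ Fintype.card F - 1 → ¬ ∃ u : F[X], a = u ^ l) :
    ∀ᶠ n : ℕ in atTop, n ≡ 1 [MOD a.natDegree.factorial] →
      ∃ P : F[X], P.Monic ∧ Irreducible P ∧ P.natDegree = n ∧ IsPrimitiveRootMod a P := by
  have hq := Fintype.one_lt_card (α := F)
  obtain ⟨C₀, hC0, hC⟩ :=
    FA.BurgessGeneral.exists_four_pow_card_primeFactors_le (show (0 : ℝ) < 1 / 4 by norm_num)
  obtain ⟨s, hs⟩ : ∃ s : ℝ, s = (Fintype.card F : ℝ) ^ (1 / 4 : ℝ) := ⟨_, rfl⟩
  have hs1 : 1 < s := hs ▸ Real.one_lt_rpow (Nat.one_lt_cast.2 hq) (by norm_num)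
  have hlim : ∀ᶠ n : ℕ in atTop, C₀ * (2 * a.natDegree) < s ^ n :=
    (tendsto_pow_atTop_atTop_of_one_lt hs1).eventually_gt_atTop _
  filter_upwards [hlim, eventually_ge_atTop 1] with n hn hn1 hmod
  have : Fact (ringChar F).Prime := ⟨CharP.char_is_prime F _⟩
  have : NeZero n := ⟨by omega⟩
  let K := FiniteField.Extension F (ringChar F) n
  let _ : Fintype K := Fintype.ofFinite K
  have hfin : Module.finrank F K = n := FiniteField.finrank_extension F (ringChar F) n
  have hQ : Fintype.card K = Fintype.card F ^ n := by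
    rw [Fintype.card_eq_nat_card, Fintype.card_eq_nat_card, FiniteField.natCard_extension]
  have hG := card_generatorPts_ge (h := a.map (algebraMap F K)) (by rwa [natDegree_map])
    (not_pow_map hm ha (by rwa [hfin]))
  rw [natDegree_map] at hG
  have hQ0 : 1 < Fintype.card K := Fintype.one_lt_card
  obtain ⟨w, hw⟩ : ∃ w, w = (Fintype.card K - 1).primeFactors.card := ⟨_, rfl⟩
  rw [← hw] at hG
  obtain ⟨r, hr⟩ : ∃ r, r = Real.sqrt (Fintype.card K) := ⟨_, rfl⟩
  rw [← hr] at hG
  have hr1 : 1 ≤ r := hr ▸ Real.one_le_sqrt.2 (Nat.one_le_cast.2 hQ0.le)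
  have hrr : r * r = Fintype.card K := hr ▸ Real.mul_self_sqrt (Nat.cast_nonneg _)
  have hw4 : (4 : ℝ) ^ w * (2 * a.natDegree) < r := by
    have h1 : (4 : ℝ) ^ w ≤ C₀ * s ^ n := by
      refine (hw ▸ hC _ (by omega)).trans (mul_le_mul_of_nonneg_left ?_ hC0.le)
      refine (Real.rpow_le_rpow (Nat.cast_nonneg _) (Nat.cast_le.2 (Nat.sub_le _ _))
        (by norm_num)).trans (le_of_eq ?_)
      rw [hQ, Nat.cast_pow, hs, Real.rpow_pow_comm (Nat.cast_nonneg _)]
    have h2 : s ^ n * s ^ n = r := by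
      rw [hr, hQ, Nat.cast_pow, Real.sqrt_eq_rpow, hs, ← mul_pow,
        ← Real.rpow_add (Nat.cast_pos.2 (by omega)), Real.rpow_pow_comm (Nat.cast_nonneg _)]
      norm_num
    rw [← h2]
    refine lt_of_le_of_lt (mul_le_mul_of_nonneg_right h1 (by positivity)) ?_
    rw [mul_comm C₀, mul_assoc]
    exact mul_lt_mul_of_pos_left hn (by positivity)
  obtain ⟨x, hx⟩ : (generatorPts (a.map (algebraMap F K))).Nonempty := by
    refine Finset.nonempty_of_ne_empty fun e => ?_
    rw [e, Finset.card_empty, Nat.cast_zero, mul_zero] at hG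
    have h6 : (a.natDegree : ℝ) ≤ 4 ^ w * (a.natDegree * r) :=
      (le_mul_of_one_le_right (Nat.cast_nonneg _) hr1).trans
        (le_mul_of_one_le_left (by positivity) (one_le_pow₀ (by norm_num)))
    have h7 := mul_lt_mul_of_pos_right hw4 (show 0 < r by linarith)
    linarith
  rw [generatorPts, mem_filter, eval_map_algebraMap] at hx
  have hint : IsIntegral F x := Algebra.IsIntegral.isIntegral x
  obtain ⟨hd, hroot⟩ := exists_of_generator hx.2
  exact ⟨_, minpoly.monic hint, minpoly.irreducible hint, hd.trans hfin, hroot⟩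

/-- Never, if `a` is an `l`-th power with `l ∣ q - 1`. -/
theorem not_isPrimitiveRootMod_pow {l : ℕ} (hl : 1 < l) (hlq : l ∣ Fintype.card F - 1) (b : F[X])
    {P : F[X]} (hirr : Irreducible P) : ¬ IsPrimitiveRootMod (b ^ l) P := by
  rintro ⟨hPa, hall⟩
  have := Fact.mk hirr
  have : Module.Finite F (AdjoinRoot P) := (AdjoinRoot.powerBasis hirr.ne_zero).finite
  have : Finite (AdjoinRoot P) := Module.finite_of_finite F
  let _ : Fintype (AdjoinRoot P) := Fintype.ofFinite _
  have hQ : Fintype.card (AdjoinRoot P) = Fintype.card F ^ P.natDegree := by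
    rw [Module.card_eq_pow_finrank (K := F), show Module.finrank F (AdjoinRoot P) = P.natDegree
      from finrank_quotient_span_eq_natDegree]
  obtain ⟨e, he⟩ : l ∣ Fintype.card (AdjoinRoot P) - 1 :=
    hlq.trans (hQ ▸ Nat.sub_one_dvd_pow_sub_one _ _)
  obtain ⟨w, hw⟩ := IsCyclic.exists_generator (α := (AdjoinRoot P)ˣ)
  obtain ⟨g, hg⟩ := AdjoinRoot.mk_surjective (w : AdjoinRoot P)
  obtain ⟨k, hk⟩ := hall g fun hd => w.ne_zero (by rw [← hg]; exact AdjoinRoot.mk_eq_zero.2 hd)
  have hwb : (w : AdjoinRoot P) = (AdjoinRoot.mk P b ^ l) ^ k := by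
    rw [← hg, ← map_pow, ← map_pow]
    exact (AdjoinRoot.mk_eq_mk.2 hk).symm
  have hb0 : AdjoinRoot.mk P b ≠ 0 := fun h => hPa
    (dvd_pow (AdjoinRoot.mk_eq_zero.1 h) (by omega))
  have hwo : orderOf w = Fintype.card (AdjoinRoot P) - 1 := by
    rw [orderOf_eq_card_of_forall_mem_zpowers hw, Nat.card_units, Nat.card_eq_fintype_card]
  have h1 : w ^ e = 1 := Units.ext (by
    rw [Units.val_pow_eq_pow_val, hwb, ← pow_mul, ← pow_mul, mul_left_comm, ← he, pow_mul',
      FiniteField.pow_card_sub_one_eq_one _ hb0, one_pow, Units.val_one])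
  have hq := Fintype.one_lt_card (α := AdjoinRoot P)
  have he0 : 0 < e := Nat.pos_of_mul_pos_left (show 0 < l * e by omega)
  have h2 := Nat.le_of_dvd he0 (orderOf_dvd_of_pow_eq_one h1)
  rw [hwo, he] at h2
  have := Nat.mul_le_mul_right e hl
  omega

end FA.Bilharz
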