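import Fermat.Agent.CharacterSums.Points
import Fermat.Agent.FermatCount.Basic

/-!
# Values of a polynomial that generate the unit group

A non-zero value `h x` generates the units unless it is an `ℓ`-th power for a prime `ℓ ∣ Q - 1`;
only the `ℓ` for which `h` is no constant times an `ℓ`-th power need a sieve, and for these Weil's
bound applies to every character of the orders concerned.
-/

set_option autoImplicit false
set_option linter.unusedSectionVars false

noncomputable section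

namespace FA.Bilharz

open Polynomial Finset FA.FermatCount FA.CharacterSums UniqueFactorizationMonoid
open scoped Classical

variable {K : Type*} [Field K] [Fintype K] [DecidableEq K]

local notation "𝕢" => Fintype.card K

theorem exists_root_of_pow_div_eq_one {a : K} (ha : a ≠ 0) {d : ℕ} (hd : d ∣ 𝕢 - 1)
    (h : a ^ ((𝕢 - 1) / d) = 1) : ∃ x : K, x ^ d = a := by
  have hq := Fintype.one_lt_card (α := K)
  obtain ⟨w, hw⟩ := IsCyclic.exists_generator (α := Kˣ)
  obtain ⟨k, hk⟩ := mem_powers_iff_mem_zpowers.2 (hw (Units.mk0 a ha))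
  have hwo : orderOf w = 𝕢 - 1 := by
    rw [orderOf_eq_card_of_forall_mem_zpowers hw, Nat.card_units, Nat.card_eq_fintype_card]
  have hk' : w ^ k = Units.mk0 a ha := hk
  have h1 : w ^ (k * ((𝕢 - 1) / d)) = 1 := by
    rw [pow_mul, hk']
    exact Units.ext (by simpa using h)
  obtain ⟨e, he⟩ := hd
  have hd0 : 0 < d := Nat.pos_of_mul_pos_right (show 0 < d * e by omega)
  rw [← orderOf_dvd_iff_pow_eq_one, hwo, he, Nat.mul_div_cancel_left _ hd0] at h1
  obtain ⟨j, rfl⟩ := (Nat.mul_dvd_mul_iff_right (Nat.pos_of_mul_pos_left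
    (show 0 < d * e by omega))).1 h1
  refine ⟨(w : K) ^ j, ?_⟩
  rw [← pow_mul, mul_comm j, ← Units.val_pow_eq_pow_val, hk', Units.val_mk0]

/-- `a` is non-zero and a `q`-th power for no `q ∈ B`. -/
def NoPowIn (B : Finset ℕ) (a : K) : Prop := a ≠ 0 ∧ ∀ q ∈ B, ¬ ∃ x : K, x ^ q = a

theorem exists_root_prod {a : K} (ha : a ≠ 0) {T : Finset ℕ}
    (hT : ∀ q ∈ T, q.Prime) (h : ∀ q ∈ T, ∃ x : K, x ^ q = a) :
    ∃ x : K, x ^ (∏ q ∈ T, q) = a := by
  induction T using Finset.induction with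
  | empty => exact ⟨a, by simp⟩
  | insert q T hq ih =>
    obtain ⟨x, hx⟩ := h q (mem_insert_self _ _)
    obtain ⟨y, hy⟩ := ih (fun i hi => hT i (mem_insert_of_mem hi))
      fun i hi => h i (mem_insert_of_mem hi)
    have hcop : Nat.Coprime q (∏ i ∈ T, i) := Nat.Coprime.prod_right fun i hi =>
      (Nat.coprime_primes (hT q (mem_insert_self _ _)) (hT i (mem_insert_of_mem hi))).2
        fun e => hq (e ▸ hi)
    obtain ⟨α, β, hαβ⟩ := Nat.isCoprime_iff_coprime.2 hcop
    obtain ⟨d, hd⟩ : ∃ d, d = ∏ i ∈ T, i := ⟨_, rfl⟩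
    rw [← hd] at hy hαβ
    refine ⟨x ^ β * y ^ α, ?_⟩
    rw [prod_insert hq, ← hd, ← zpow_natCast, mul_zpow, ← zpow_mul, ← zpow_mul, Nat.cast_mul,
      show β * ((q : ℤ) * (d : ℤ)) = (q : ℤ) * (β * d) by ring,
      show α * ((q : ℤ) * (d : ℤ)) = (d : ℤ) * (α * q) by ring, zpow_mul x (q : ℤ) (β * d),
      zpow_mul y (d : ℤ) (α * q), zpow_natCast, zpow_natCast, hx, hy, ← zpow_add₀ ha, add_comm,
      hαβ, zpow_one]

theorem killed_sum_div {d : ℕ} (hd : d ∣ 𝕢 - 1) (hd0 : 0 < d) (a : K) (ha : a ≠ 0) :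
    (∑ χ ∈ killed K d, χ a) / (d : ℂ) = if ∃ x : K, x ^ d = a then 1 else 0 := by
  split_ifs with h
  · obtain ⟨x, hx⟩ := h
    have hx0 : x ≠ 0 := fun e => ha (by rw [← hx, e, zero_pow hd0.ne'])
    rw [sum_congr rfl fun χ hχ => show χ a = (1 : ℂ) by
      rw [← hx, map_pow, ← MulChar.pow_apply' _ hd0.ne', mem_killed.1 hχ,
        MulChar.one_apply (Ne.isUnit hx0)], sum_const, card_killed,
      Nat.gcd_eq_left hd, nsmul_one, div_self (Nat.cast_ne_zero.2 hd0.ne')]
  · rw [← card_roots_eq_sum hd0 ha, Finset.card_eq_zero.2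
      (eq_empty_of_forall_notMem fun x hx => h ⟨x, FA.FermatCount.mem_roots.1 hx⟩), Nat.cast_zero,
      zero_div]

theorem prod_mem_facts {B : Finset ℕ} (hB : B ⊆ (𝕢 - 1).primeFactors) {T : Finset ℕ}
    (hT : T ⊆ B) : 0 < ∏ q ∈ T, q ∧ (∏ q ∈ T, q) ∣ 𝕢 - 1 :=
  ⟨prod_pos fun _ hq => (Nat.prime_of_mem_primeFactors (hB (hT hq))).pos,
    (prod_dvd_prod_of_subset _ _ _ (hT.trans hB)).trans (Nat.prod_primeFactors_dvd _)⟩

theorem noPowIn_indicator {B : Finset ℕ} (hB : B ⊆ (𝕢 - 1).primeFactors) (a : K) :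
    (if NoPowIn B a then (1 : ℂ) else 0) = ∑ T ∈ B.powerset,
      (-1 : ℂ) ^ T.card * ((∑ χ ∈ killed K (∏ q ∈ T, q), χ a) / ((∏ q ∈ T, q : ℕ) : ℂ)) := by
  rcases eq_or_ne a 0 with rfl | ha
  · simp [NoPowIn, MulChar.map_zero]
  have hprime : ∀ T ∈ B.powerset, ∀ q ∈ T, q.Prime := fun T hT q hq =>
    Nat.prime_of_mem_primeFactors (hB (mem_powerset.1 hT hq))
  rw [sum_congr rfl fun T hT => by
    rw [killed_sum_div (prod_mem_facts hB (mem_powerset.1 hT)).2
        (prod_mem_facts hB (mem_powerset.1 hT)).1 a ha,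
      show (if ∃ x : K, x ^ (∏ q ∈ T, q) = a then (1 : ℂ) else 0) =
          ∏ q ∈ T, if ∃ x : K, x ^ q = a then (1 : ℂ) else 0 by
        rw [prod_boole]
        refine if_congr ⟨?_, exists_root_prod ha (hprime T hT)⟩ rfl rfl
        rintro ⟨x, hx⟩ q hq
        obtain ⟨e, he⟩ := dvd_prod_of_mem (fun i => i) hq
        exact ⟨x ^ e, by rw [← pow_mul, mul_comm, ← he, hx]⟩,
      ← prod_neg]]
  rw [← prod_one_add]
  by_cases h : NoPowIn B a
  · rw [if_pos h, prod_eq_one fun q hq => by rw [if_neg (h.2 q hq), neg_zero, add_zero]]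
  · rw [if_neg h]
    simp only [NoPowIn, not_and, not_forall, not_not] at h
    obtain ⟨q, hq, hx⟩ := h ha
    exact (prod_eq_zero hq (by rw [if_pos hx, add_neg_cancel])).symm

/-- The points at which `h` takes a generator of the units. -/
def generatorPts (h : K[X]) : Finset K := univ.filter fun x => orderOf (h.eval x) = 𝕢 - 1

theorem card_generatorPts_ge {h : K[X]} (hm : 1 ≤ h.natDegree)
    (hpow : ∀ l : ℕ, l.Prime → l ∣ 𝕢 - 1 → ¬ ∃ u : K[X], h = u ^ l) :
    (𝕢 : ℝ) - h.natDegree - (4 : ℝ) ^ (𝕢 - 1).primeFactors.card *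
        (h.natDegree * Real.sqrt 𝕢) ≤
      (2 : ℝ) ^ (𝕢 - 1).primeFactors.card * (generatorPts h).card := by
  have hh0 : h ≠ 0 := fun e => by rw [e, natDegree_zero] at hm; omega
  obtain ⟨B, hBdef⟩ : ∃ B : Finset ℕ, B = (𝕢 - 1).primeFactors.filter
      fun l => ¬ ∃ (c : K) (u : K[X]), h = C c * u ^ l := ⟨_, rfl⟩
  have hB : B ⊆ (𝕢 - 1).primeFactors := hBdef ▸ filter_subset _ _
  obtain ⟨S, hS⟩ : ∃ S : Finset K, S = univ.filter fun x => NoPowIn B (h.eval x) := ⟨_, rfl⟩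
  have hSG : S.card ≤ (generatorPts h).card := by
    refine card_le_card fun x hx => ?_
    rw [hS, mem_filter] at hx
    refine mem_filter.2 ⟨mem_univ _, ?_⟩
    have hq := Fintype.one_lt_card (α := K)
    refine orderOf_eq_of_pow_and_pow_div_prime (by omega)
      (FiniteField.pow_card_sub_one_eq_one _ hx.2.1) fun l hl hld hone => ?_
    obtain ⟨y, hy⟩ := exists_root_of_pow_div_eq_one hx.2.1 hld hone
    by_cases hlB : l ∈ B
    · exact hx.2.2 l hlB ⟨y, hy⟩
    rw [hBdef, mem_filter, not_and, not_not] at hlB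
    obtain ⟨c, u, hcu⟩ := hlB (Nat.mem_primeFactors.2 ⟨hl, hld, by omega⟩)
    refine hpow l hl hld ⟨C (y / u.eval x) * u, ?_⟩
    have hu : u.eval x ≠ 0 := fun e => hx.2.1 (by
      rw [hcu, eval_mul, eval_pow, e, zero_pow hl.ne_zero, mul_zero])
    rw [hcu, eval_mul, eval_C, eval_pow] at hy
    rw [mul_pow, ← C_pow, div_pow, hy, mul_div_cancel_right₀ _ (pow_ne_zero _ hu), hcu]
  -- the characters concerned are generic
  have hweil : ∀ T ∈ B.powerset, ∀ χ ∈ (killed K (∏ q ∈ T, q)).erase 1,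
      ‖∑ x : K, χ (h.eval x)‖ ≤ h.natDegree * Real.sqrt 𝕢 := by
    intro T hT χ hχ
    rw [mem_erase, mem_killed] at hχ
    rw [mem_powerset] at hT
    have hnd : Nondeg χ h := by
      refine nondeg_of_not_pow fun ⟨c, u, hcu⟩ => ?_
      obtain ⟨l, hl, hld⟩ := Nat.exists_prime_and_dvd
        (fun e => hχ.1 (orderOf_eq_one_iff.1 e) : orderOf χ ≠ 1)
      obtain ⟨e, he⟩ := hld
      obtain ⟨i, hi, hli⟩ := (hl.prime.dvd_finsetProd_iff fun i => i).1
        ((Dvd.intro e he.symm).trans (orderOf_dvd_of_pow_eq_one hχ.2))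
      have hlT : l ∈ T := by
        rwa [(Nat.prime_dvd_prime_iff_eq hl (Nat.prime_of_mem_primeFactors (hB (hT hi)))).1 hli]
      have := hT hlT
      rw [hBdef, mem_filter] at this
      exact this.2 ⟨c, u ^ e, by rw [hcu, he, ← pow_mul, mul_comm e]⟩
    refine (norm_sum_mulChar_le hnd).trans (mul_le_mul_of_nonneg_right (Nat.cast_le.2 ?_)
      (Real.sqrt_nonneg _))
    exact (Nat.sub_le _ _).trans (natDegree_le_of_dvd radical_dvd_self hh0)
  obtain ⟨c, hc⟩ : ∃ c : Finset ℕ → ℂ,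
      c = fun T => (-1 : ℂ) ^ T.card / ((∏ q ∈ T, q : ℕ) : ℂ) := ⟨_, rfl⟩
  have h0 : (S.card : ℂ) =
      ∑ T ∈ B.powerset, c T * ∑ χ ∈ killed K (∏ q ∈ T, q), ∑ x : K, χ (h.eval x) := by
    calc (S.card : ℂ) = ∑ x : K, (if NoPowIn B (h.eval x) then (1 : ℂ) else 0) := by
          rw [hS, card_filter, Nat.cast_sum]
          exact sum_congr rfl fun x _ => by split_ifs <;> simp
      _ = _ := by
          simp only [noPowIn_indicator hB, mul_sum, sum_div, hc]
          rw [sum_comm]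
          refine sum_congr rfl fun T _ => ?_
          rw [sum_comm]
          exact sum_congr rfl fun n _ => sum_congr rfl fun χ _ => by ring
  have herr : ∀ T ∈ B.powerset,
      ‖c T * ∑ χ ∈ (killed K (∏ q ∈ T, q)).erase 1, ∑ x : K, χ (h.eval x)‖ ≤
        h.natDegree * Real.sqrt 𝕢 := by
    intro T hT
    obtain ⟨hd, hdd⟩ := prod_mem_facts hB (mem_powerset.1 hT)
    have hd' : (0 : ℝ) < ((∏ q ∈ T, q : ℕ) : ℝ) := Nat.cast_pos.2 hd
    rw [norm_mul, hc, norm_div, norm_pow, norm_neg, norm_one, one_pow, Complex.norm_natCast,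
      one_div, inv_mul_le_iff₀ hd']
    refine (norm_sum_le_of_le _ (hweil T hT)).trans ?_
    rw [sum_const, nsmul_eq_mul]
    refine mul_le_mul_of_nonneg_right (Nat.cast_le.2 ((card_le_card (erase_subset _ _)).trans ?_))
      (by positivity)
    rw [card_killed, Nat.gcd_eq_left hdd]
  obtain ⟨Z, hZ⟩ : ∃ Z : ℂ, Z = ∑ x : K, (1 : MulChar K ℂ) (h.eval x) := ⟨_, rfl⟩
  have hsplit : Z * ∏ q ∈ B, (1 - 1 / (q : ℂ)) = (S.card : ℂ) - ∑ T ∈ B.powerset,
      c T * ∑ χ ∈ (killed K (∏ q ∈ T, q)).erase 1, ∑ x : K, χ (h.eval x) := by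
    rw [h0, eq_sub_iff_add_eq]
    simp only [sub_eq_add_neg]
    rw [prod_one_add, mul_sum, ← sum_add_distrib]
    refine sum_congr rfl fun T _ => ?_
    conv_rhs => rw [← add_sum_erase _ _ one_mem_killed, mul_add, mul_comm (c T), ← hZ]
    rw [hc]
    simp only
    rw [prod_neg, prod_div_distrib, prod_const_one, ← Nat.cast_prod]
    ring
  have hone : (𝕢 : ℝ) - h.natDegree ≤ ‖Z‖ := by
    have h1 : Z = ((univ.filter fun x : K => h.eval x ≠ 0).card : ℂ) := by
      rw [hZ, card_filter, Nat.cast_sum]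
      refine sum_congr rfl fun x _ => ?_
      split_ifs with hx
      · rw [Nat.cast_one, MulChar.one_apply (Ne.isUnit hx)]
      · rw [not_not.1 hx, MulChar.map_zero, Nat.cast_zero]
    rw [h1, Complex.norm_natCast]
    have h2 := card_filter_add_card_filter_not (s := (univ : Finset K)) (fun x => h.eval x = 0)
    rw [card_univ] at h2
    have h3 : (univ.filter fun x : K => h.eval x = 0).card ≤ h.natDegree :=
      card_le_degree_of_subset_roots fun x hx => (mem_roots hh0).2 (mem_filter.1 hx).2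
    have h4 : (𝕢 : ℝ) ≤ ((h.natDegree + (univ.filter fun x : K => h.eval x ≠ 0).card : ℕ) : ℝ) :=
      Nat.cast_le.2 (h2.symm.le.trans (Nat.add_le_add_right h3 _))
    push_cast at h4
    linarith
  have hprod : ((2 : ℝ)⁻¹) ^ B.card ≤ ‖∏ q ∈ B, (1 - 1 / (q : ℂ))‖ := by
    rw [norm_prod, ← prod_const]
    refine prod_le_prod (fun q _ => by norm_num) fun q hq => ?_
    have hq2 : (2 : ℝ) ≤ q := Nat.ofNat_le_cast.2 (Nat.prime_of_mem_primeFactors (hB hq)).two_le
    rw [show (1 : ℂ) - 1 / (q : ℂ) = (((1 : ℝ) - 1 / (q : ℝ) : ℝ) : ℂ) by push_cast; rfl,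
      Complex.norm_real, Real.norm_eq_abs]
    refine le_trans ?_ (le_abs_self _)
    have : 1 / (q : ℝ) ≤ 1 / 2 := by gcongr
    linarith
  have h2 := congrArg norm hsplit
  rw [norm_mul] at h2
  have h3 := ((mul_le_mul_of_nonneg_left hprod (norm_nonneg Z)).trans
    (h2.le.trans ((norm_sub_le _ _).trans (add_le_add le_rfl (norm_sum_le_of_le _ herr)))))
  rw [Complex.norm_natCast, sum_const, card_powerset, nsmul_eq_mul, inv_pow, ← div_eq_mul_inv,
    div_le_iff₀ (by positivity)] at h3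
  push_cast at h3
  have hw : B.card ≤ (𝕢 - 1).primeFactors.card := card_le_card hB
  have h5 : (2 : ℝ) ^ B.card * (S.card : ℝ) ≤
      (2 : ℝ) ^ (𝕢 - 1).primeFactors.card * (generatorPts h).card :=
    mul_le_mul (pow_le_pow_right₀ one_le_two hw) (Nat.cast_le.2 hSG) (by positivity) (by positivity)
  have h6 : (2 : ℝ) ^ B.card * (h.natDegree * Real.sqrt 𝕢) * (2 : ℝ) ^ B.card ≤
      (4 : ℝ) ^ (𝕢 - 1).primeFactors.card * (h.natDegree * Real.sqrt 𝕢) := by
    rw [mul_right_comm, ← mul_pow, show (2 : ℝ) * 2 = 4 by norm_num]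
    exact mul_le_mul_of_nonneg_right (pow_le_pow_right₀ (by norm_num) hw) (by positivity)
  linarith

end FA.Bilharz
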